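import Mathlib

/-!
# S29 / K3 (descent ℂ → ℚ̄): reduced-echelon descent  (helper751, Mathlib-only)

Design: `origin/helper751:coord/S29-E3-helper751.md`.

* `exists_coord_bijective` : a finite-dimensional subspace `W ⊆ ι → Ω` of dimension `d` has `d`
  pivot coordinates on which restriction `W → Ω^d` is bijective.
* `exists_fixed_basis` : if `W` is stable under the coordinatewise action of a set `S` of ring
  endomorphisms of `Ω`, the reduced echelon basis of `W` has all coordinates fixed by `S`.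
* `exists_fixed_basis_of_coord` : same for any vector space with an injective coordinate map.
* `exists_rational_ne_zero_laurent_aux`, `exists_rational_ne_zero_of_finiteIndex(')` :
  a nonzero finite-dimensional subspace `W ⊆ Ω((q))` stable under coefficientwise action of a
  finite-index subgroup `H ≤ Aut(Ω/K)` contains `w₀.map (algebraMap K Ω)` for some nonzero
  `w₀ ∈ K((q))`.  (Prelude `ModularCurve.coeffMap f x` is `x.map f` by `rfl`.)
* `finite_orbit_of_finiteIndex` : fixed by a finite-index subgroup ⇒ finite orbit.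
-/

set_option autoImplicit false

namespace Fermat.Agent.S29.H751

open Module

/-- The coordinate functionals of a finite-dimensional subspace `W ⊆ ι → Ω` span its dual. -/
theorem span_coord_eq_top {Ω ι : Type*} [Field Ω] (W : Submodule Ω (ι → Ω))
    [FiniteDimensional Ω W] :
    Submodule.span Ω (Set.range fun i : ι =>
      ((LinearMap.proj i : (ι → Ω) →ₗ[Ω] Ω).comp W.subtype : Dual Ω W)) = ⊤ := by
  set Φ : Subspace Ω (Dual Ω W) := Submodule.span Ω (Set.range fun i : ι =>
      ((LinearMap.proj i : (ι → Ω) →ₗ[Ω] Ω).comp W.subtype : Dual Ω W)) with hΦ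
  have h0 : Φ.dualCoannihilator = ⊥ := by
    rw [eq_bot_iff]
    intro x hx
    rw [Submodule.mem_dualCoannihilator] at hx
    rw [Submodule.mem_bot]
    apply Subtype.ext
    funext i
    have := hx _ (Submodule.subset_span ⟨i, rfl⟩)
    simpa using this
  have h1 := Subspace.dualCoannihilator_dualAnnihilator_eq (W := Φ)
  rw [h0, Submodule.dualAnnihilator_bot] at h1
  exact h1.symm

/-- **Pivot coordinates.**  A finite-dimensional subspace `W ⊆ ι → Ω` of dimension `d` has `d`
coordinates `e 0, …, e (d-1)` such that `w ↦ (w (e k))_k` is a bijection `W → Ω^d`. -/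
theorem exists_coord_bijective {Ω ι : Type*} [Field Ω] (W : Submodule Ω (ι → Ω))
    [FiniteDimensional Ω W] :
    ∃ e : Fin (finrank Ω W) → ι,
      Function.Bijective (fun (w : W) (k : Fin (finrank Ω W)) => (w : ι → Ω) (e k)) := by
  classical
  set φ : ι → Dual Ω W := fun i => (LinearMap.proj i : (ι → Ω) →ₗ[Ω] Ω).comp W.subtype with hφ
  obtain ⟨b, hbsub, hbspan, hbli⟩ := exists_linearIndependent Ω (Set.range φ)
  have hspan : Submodule.span Ω b = ⊤ := by rw [hbspan]; exact span_coord_eq_top W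
  -- the basis of the dual indexed by `b`
  let B : Basis b Ω (Dual Ω W) := Basis.mk hbli (by
    rw [Subtype.range_coe_subtype]; simpa using hspan.ge)
  have : Finite b := Module.Finite.finite_basis B
  have : Fintype b := Fintype.ofFinite b
  have hcard : Fintype.card b = finrank Ω W := by
    rw [← Module.finrank_eq_card_basis B, Subspace.dual_finrank_eq]
  let eqv : Fin (finrank Ω W) ≃ b := (Fintype.equivFinOfCardEq hcard).symm
  have hex : ∀ k : Fin (finrank Ω W), ∃ i : ι, φ i = (eqv k : Dual Ω W) := fun k =>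
    hbsub (eqv k).2
  choose e he using hex
  refine ⟨e, ?_⟩
  let ρ : W →ₗ[Ω] (Fin (finrank Ω W) → Ω) := LinearMap.pi fun k => φ (e k)
  have hρ : (fun (w : W) (k : Fin (finrank Ω W)) => (w : ι → Ω) (e k)) = ρ := by
    funext w k
    simp [ρ, hφ]
  rw [hρ]
  have hinj : Function.Injective ρ := by
    rw [← LinearMap.ker_eq_bot, eq_bot_iff]
    intro w hw
    rw [LinearMap.mem_ker] at hw
    rw [Submodule.mem_bot]
    rw [← Module.forall_dual_apply_eq_zero_iff Ω]
    intro ψ
    have hψ : ψ ∈ Submodule.span Ω b := by rw [hspan]; trivial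
    induction hψ using Submodule.span_induction with
    | mem x hx =>
        obtain ⟨k, hk⟩ := eqv.surjective ⟨x, hx⟩
        have h1 : φ (e k) = x := by rw [he k, hk]
        have h2 : ρ w k = 0 := by rw [hw]; rfl
        rw [← h1]
        exact h2
    | zero => simp
    | add x y _ _ hx hy => simp [hx, hy]
    | smul a x _ hx => simp [hx]
  refine ⟨hinj, ?_⟩
  have hfr : finrank Ω W = finrank Ω (Fin (finrank Ω W) → Ω) := by
    rw [Module.finrank_fin_fun]
  exact (LinearMap.injective_iff_surjective_of_finrank_eq_finrank hfr).mp hinj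

/-- **Reduced echelon descent.**  Let `S` be a set of ring endomorphisms of a field `Ω` and
`W ⊆ ι → Ω` a finite-dimensional subspace stable under the coordinatewise action of every
`σ ∈ S`.  Then `W` has a basis all of whose coordinates are fixed by every `σ ∈ S`. -/
theorem exists_fixed_basis {Ω ι : Type*} [Field Ω] (S : Set (Ω →+* Ω))
    (W : Submodule Ω (ι → Ω)) [FiniteDimensional Ω W]
    (hW : ∀ σ ∈ S, ∀ w ∈ W, (fun i => σ (w i)) ∈ W) :
    ∃ b : Fin (finrank Ω W) → (ι → Ω), (∀ k, b k ∈ W) ∧ LinearIndependent Ω b ∧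
      Submodule.span Ω (Set.range b) = W ∧ ∀ σ ∈ S, ∀ k i, σ (b k i) = b k i := by
  classical
  obtain ⟨e, hinj, hsurj⟩ := exists_coord_bijective W
  -- the reduced echelon basis
  have hex : ∀ k : Fin (finrank Ω W), ∃ w : W,
      (fun k' : Fin (finrank Ω W) => (w : ι → Ω) (e k')) = Pi.single k (1 : Ω) := fun k =>
    hsurj (Pi.single k 1)
  choose c hc using hex
  have hc' : ∀ k k', (c k : ι → Ω) (e k') = if k' = k then 1 else 0 := by
    intro k k'
    have := congrFun (hc k) k'
    rw [this, Pi.single_apply]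
  -- linear independence in `W`
  have hliW : LinearIndependent Ω c := by
    rw [Fintype.linearIndependent_iff]
    intro g hg k
    have h1 := congrArg (fun w : W => (w : ι → Ω) (e k)) hg
    simp only [Submodule.coe_sum, Submodule.coe_smul, Finset.sum_apply, Pi.smul_apply,
      smul_eq_mul, hc', Submodule.coe_zero, Pi.zero_apply] at h1
    simpa using h1
  have hspanW : Submodule.span Ω (Set.range c) = ⊤ :=
    hliW.span_eq_top_of_card_eq_finrank' (by simp)
  refine ⟨fun k => (c k : ι → Ω), fun k => (c k).2, ?_, ?_, ?_⟩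
  · exact hliW.map' W.subtype (Submodule.ker_subtype W)
  · have h1 : (Set.range fun k => (c k : ι → Ω)) = W.subtype '' (Set.range c) := by
      rw [← Set.range_comp]; rfl
    rw [h1, Submodule.span_image, hspanW, Submodule.map_top, Submodule.range_subtype]
  · intro σ hσ k i
    have hmem : (fun i => σ ((c k : ι → Ω) i)) ∈ W := hW σ hσ _ (c k).2
    have heq : (⟨_, hmem⟩ : W) = c k := by
      apply hinj
      funext k'
      simp only [hc']
      split_ifs <;> simp
    exact congrFun (congrArg Subtype.val heq) i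

/-- Corollary: a nonzero finite-dimensional stable subspace contains a nonzero vector all of
whose coordinates are fixed. -/
theorem exists_fixed_ne_zero {Ω ι : Type*} [Field Ω] (S : Set (Ω →+* Ω))
    (W : Submodule Ω (ι → Ω)) [FiniteDimensional Ω W] (hW0 : W ≠ ⊥)
    (hW : ∀ σ ∈ S, ∀ w ∈ W, (fun i => σ (w i)) ∈ W) :
    ∃ w ∈ W, w ≠ 0 ∧ ∀ σ ∈ S, ∀ i, σ (w i) = w i := by
  obtain ⟨b, hbW, hli, -, hfix⟩ := exists_fixed_basis S W hW
  have hpos : 0 < finrank Ω W := by
    rw [Module.finrank_pos_iff_exists_ne_zero]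
    obtain ⟨w, hw, hw0⟩ := (Submodule.ne_bot_iff W).mp hW0
    exact ⟨⟨w, hw⟩, fun h => hw0 (congrArg Subtype.val h)⟩
  exact ⟨b ⟨0, hpos⟩, hbW _, hli.ne_zero _, fun σ hσ i => hfix σ hσ _ i⟩

/-- General form of the echelon descent: `V` any `Ω`-vector space with an injective linear
"coordinate" map `c : V → (ι → Ω)` and maps `act σ : V → V` acting on coordinates through `σ`. -/
theorem exists_fixed_basis_of_coord {Ω ι V : Type*} [Field Ω] [AddCommGroup V] [Module Ω V]
    (c : V →ₗ[Ω] (ι → Ω)) (hc : Function.Injective c) (S : Set (Ω →+* Ω))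
    (act : (Ω →+* Ω) → V → V) (hact : ∀ σ ∈ S, ∀ v i, c (act σ v) i = σ (c v i))
    (W : Submodule Ω V) [FiniteDimensional Ω W] (hW : ∀ σ ∈ S, ∀ w ∈ W, act σ w ∈ W) :
    ∃ (d : ℕ) (b : Fin d → V), d = finrank Ω W ∧ (∀ k, b k ∈ W) ∧ LinearIndependent Ω b ∧
      Submodule.span Ω (Set.range b) = W ∧ ∀ σ ∈ S, ∀ k i, σ (c (b k) i) = c (b k) i := by
  classical
  have hfin : FiniteDimensional Ω (W.map c) :=
    Module.Finite.map W c
  have hW' : ∀ σ ∈ S, ∀ w ∈ W.map c, (fun i => σ (w i)) ∈ W.map c := by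
    rintro σ hσ _ ⟨v, hv, rfl⟩
    refine ⟨act σ v, hW σ hσ v hv, ?_⟩
    funext i
    exact hact σ hσ v i
  obtain ⟨b', hb'W, hli', hspan', hfix'⟩ := exists_fixed_basis S (W.map c) hW'
  have hex : ∀ k, ∃ v ∈ W, c v = b' k := fun k => hb'W k
  choose b hbW hb using hex
  have hcb : ⇑c ∘ b = b' := funext hb
  refine ⟨finrank Ω (W.map c), b, ?_, hbW, ?_, ?_, ?_⟩
  · exact (LinearEquiv.finrank_eq (Submodule.equivMapOfInjective c hc W)).symm
  · exact LinearIndependent.of_comp c (by rw [hcb]; exact hli')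
  · apply Submodule.map_injective_of_injective hc
    rw [Submodule.map_span, ← Set.range_comp, hcb, hspan']
  · intro σ hσ k i
    rw [hb k]
    exact hfix' σ hσ k i

/-- Laurent series form of the echelon descent.  The module structure on `Ω((q))` is a
parameter (Mathlib has two instances, `HahnSeries.instModule` and `Algebra.toModule`, which are
not reducibly defeq); only linearity of the coefficient functionals (`hcoeff`) is used. -/
theorem exists_fixed_basis_laurent_aux {Ω : Type*} [Field Ω] [Module Ω (LaurentSeries Ω)]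
    (hcoeff : ∀ n : ℤ, ∃ f : LaurentSeries Ω →ₗ[Ω] Ω, ∀ x, f x = x.coeff n)
    (S : Set (Ω →+* Ω)) (W : Submodule Ω (LaurentSeries Ω)) [FiniteDimensional Ω W]
    (hW : ∀ σ ∈ S, ∀ w ∈ W, HahnSeries.map w σ ∈ W) :
    ∃ (d : ℕ) (b : Fin d → LaurentSeries Ω), d = finrank Ω W ∧ (∀ k, b k ∈ W) ∧
      LinearIndependent Ω b ∧ Submodule.span Ω (Set.range b) = W ∧
      ∀ σ ∈ S, ∀ k n, σ ((b k).coeff n) = (b k).coeff n := by
  choose f hf using hcoeff
  let c : LaurentSeries Ω →ₗ[Ω] (ℤ → Ω) := LinearMap.pi f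
  have hcx : ∀ x n, c x n = x.coeff n := fun x n => hf n x
  have hc : Function.Injective c := fun x y h => by
    apply HahnSeries.coeff_injective
    funext n
    rw [← hcx x n, ← hcx y n, h]
  obtain ⟨d, b, hd, hbW, hli, hspan, hfix⟩ :=
    exists_fixed_basis_of_coord c hc S (fun σ x => HahnSeries.map x σ)
      (fun σ _ v i => by rw [hcx, hcx]; rfl) W hW
  exact ⟨d, b, hd, hbW, hli, hspan, fun σ hσ k n => by rw [← hcx]; exact hfix σ hσ k n⟩

/-- Corollary: a nonzero finite-dimensional subspace of `Ω((q))`, stable under the coefficientwise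
action of `S`, contains a nonzero series whose coefficients are all fixed by `S`. -/
theorem exists_fixed_ne_zero_laurent_aux {Ω : Type*} [Field Ω] [Module Ω (LaurentSeries Ω)]
    (hcoeff : ∀ n : ℤ, ∃ f : LaurentSeries Ω →ₗ[Ω] Ω, ∀ x, f x = x.coeff n)
    (S : Set (Ω →+* Ω)) (W : Submodule Ω (LaurentSeries Ω)) [FiniteDimensional Ω W]
    (hW0 : W ≠ ⊥) (hW : ∀ σ ∈ S, ∀ w ∈ W, HahnSeries.map w σ ∈ W) :
    ∃ w ∈ W, w ≠ 0 ∧ ∀ σ ∈ S, ∀ n, σ (w.coeff n) = w.coeff n := by
  obtain ⟨d, b, hd, hbW, hli, -, hfix⟩ := exists_fixed_basis_laurent_aux hcoeff S W hW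
  have hpos : 0 < d := by
    rw [hd, Module.finrank_pos_iff_exists_ne_zero]
    obtain ⟨w, hw, hw0⟩ := (Submodule.ne_bot_iff W).mp hW0
    exact ⟨⟨w, hw⟩, fun h => hw0 (congrArg Subtype.val h)⟩
  exact ⟨b ⟨0, hpos⟩, hbW _, hli.ne_zero _, fun σ hσ n => hfix σ hσ _ n⟩

/-- A Laurent series over `Ω` all of whose coefficients lie in the image of `K → Ω` is the
coefficientwise image of a Laurent series over `K`. -/
theorem exists_laurent_of_coeff_mem_range {K Ω : Type*} [Field K] [Field Ω] [Algebra K Ω]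
    (w : LaurentSeries Ω) (hw : ∀ n, w.coeff n ∈ Set.range (algebraMap K Ω)) :
    ∃ w₀ : LaurentSeries K, HahnSeries.map w₀ (algebraMap K Ω) = w := by
  choose a ha using hw
  have hsupp : Function.support a ⊆ w.support := by
    intro n hn
    rw [Function.mem_support] at hn
    rw [HahnSeries.mem_support, ← ha n]
    exact fun h => hn ((algebraMap K Ω).injective (by rw [h, map_zero]))
  refine ⟨⟨a, w.isPWO_support.mono hsupp⟩, ?_⟩
  ext n
  exact ha n

/-- **Echelon descent, rational form** (any module structure with linear coefficients).  If the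
common fixed field of `S` is (the image of) `K`, every nonzero finite-dimensional `S`-stable
subspace of `Ω((q))` contains a nonzero series with coefficients in `K`. -/
theorem exists_rational_ne_zero_laurent_aux {K Ω : Type*} [Field K] [Field Ω] [Algebra K Ω]
    [Module Ω (LaurentSeries Ω)]
    (hcoeff : ∀ n : ℤ, ∃ f : LaurentSeries Ω →ₗ[Ω] Ω, ∀ x, f x = x.coeff n)
    (S : Set (Ω →+* Ω))
    (hfix : ∀ z : Ω, (∀ σ ∈ S, σ z = z) → z ∈ Set.range (algebraMap K Ω))
    (W : Submodule Ω (LaurentSeries Ω)) [FiniteDimensional Ω W]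
    (hW0 : W ≠ ⊥) (hW : ∀ σ ∈ S, ∀ w ∈ W, HahnSeries.map w σ ∈ W) :
    ∃ w₀ : LaurentSeries K, w₀ ≠ 0 ∧ HahnSeries.map w₀ (algebraMap K Ω) ∈ W := by
  obtain ⟨w, hwW, hw0, hwfix⟩ := exists_fixed_ne_zero_laurent_aux hcoeff S W hW0 hW
  obtain ⟨w₀, hw₀⟩ := exists_laurent_of_coeff_mem_range (K := K) w
    (fun n => hfix _ (fun σ hσ => hwfix σ hσ n))
  refine ⟨w₀, ?_, by rw [hw₀]; exact hwW⟩
  rintro rfl
  apply hw0
  rw [← hw₀]
  ext n
  simp

/-- An element fixed by a finite-index subgroup `H` of `Aut(Ω/K)` has a finite orbit under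
`Aut(Ω/K)`. -/
theorem finite_orbit_of_finiteIndex {K Ω : Type*} [Field K] [Field Ω] [Algebra K Ω]
    (H : Subgroup (Ω ≃ₐ[K] Ω)) [H.FiniteIndex] (z : Ω) (hz : ∀ σ ∈ H, σ z = z) :
    (Set.range fun σ : Ω ≃ₐ[K] Ω => σ z).Finite := by
  have hle : H ≤ MulAction.stabilizer (Ω ≃ₐ[K] Ω) z := fun σ hσ => by
    rw [MulAction.mem_stabilizer_iff]
    exact hz σ hσ
  have : (MulAction.stabilizer (Ω ≃ₐ[K] Ω) z).FiniteIndex := Subgroup.finiteIndex_of_le hle
  have : Finite ((Ω ≃ₐ[K] Ω) ⧸ MulAction.stabilizer (Ω ≃ₐ[K] Ω) z) :=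
    Subgroup.finite_quotient_of_finiteIndex
  have hfin : Finite (MulAction.orbit (Ω ≃ₐ[K] Ω) z) :=
    Finite.of_equiv _ (MulAction.orbitEquivQuotientStabilizer (Ω ≃ₐ[K] Ω) z).symm
  exact Set.toFinite (MulAction.orbit (Ω ≃ₐ[K] Ω) z)

/-- **Echelon descent for a finite-index subgroup of `Aut(Ω/K)`** (any module structure with
linear coefficients).  `hAlg` is the statement "an element of `Ω` with finite `Aut(Ω/K)`-orbit
lies in `K`" (true for `K` algebraically closed of characteristic `0` and `Ω` algebraically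
closed). -/
theorem exists_rational_ne_zero_of_finiteIndex_aux {K Ω : Type*} [Field K] [Field Ω]
    [Algebra K Ω] [Module Ω (LaurentSeries Ω)]
    (hcoeff : ∀ n : ℤ, ∃ f : LaurentSeries Ω →ₗ[Ω] Ω, ∀ x, f x = x.coeff n)
    (hAlg : ∀ z : Ω, (Set.range fun σ : Ω ≃ₐ[K] Ω => σ z).Finite →
      z ∈ Set.range (algebraMap K Ω))
    (H : Subgroup (Ω ≃ₐ[K] Ω)) [H.FiniteIndex]
    (W : Submodule Ω (LaurentSeries Ω)) [FiniteDimensional Ω W] (hW0 : W ≠ ⊥)
    (hW : ∀ σ ∈ H, ∀ w ∈ W, HahnSeries.map w (σ : Ω →+* Ω) ∈ W) :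
    ∃ w₀ : LaurentSeries K, w₀ ≠ 0 ∧ HahnSeries.map w₀ (algebraMap K Ω) ∈ W := by
  refine exists_rational_ne_zero_laurent_aux hcoeff
    {τ : Ω →+* Ω | ∃ σ ∈ H, τ = (σ : Ω →+* Ω)} ?_ W hW0 ?_
  · intro z hz
    refine hAlg z (finite_orbit_of_finiteIndex H z fun σ hσ => ?_)
    exact hz _ ⟨σ, hσ, rfl⟩
  · rintro _ ⟨σ, hσ, rfl⟩ w hw
    exact hW σ hσ w hw

/-- The coefficient functionals are linear for the coefficientwise module structure
`HahnSeries.instModule` (the instance found by typeclass search). -/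
theorem hcoeff_instModule (Ω : Type*) [Field Ω] :
    ∀ n : ℤ, ∃ f : LaurentSeries Ω →ₗ[Ω] Ω, ∀ x, f x = x.coeff n := fun n =>
  ⟨{ toFun := fun x => x.coeff n
     map_add' := fun x y => by simp
     map_smul' := fun a x => by simp }, fun _ => rfl⟩

/-- `algebraMap Ω Ω((q))` is the constant series. -/
theorem algebraMap_laurent_eq_single (Ω : Type*) [Field Ω] (c : Ω) :
    algebraMap Ω (LaurentSeries Ω) c = HahnSeries.single 0 c := by
  have h1 : algebraMap Ω (PowerSeries Ω) c = PowerSeries.C c := by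
    simp
  rw [HahnSeries.algebraMap_apply', h1, HahnSeries.ofPowerSeries_C]
  rfl

/-- Coefficients of a scalar multiple, for the scalar action coming from the `Algebra`
structure. -/
theorem coeff_algebra_smul (Ω : Type*) [Field Ω] (n : ℤ) (a : Ω) (x : LaurentSeries Ω) :
    (@HSMul.hSMul Ω (LaurentSeries Ω) (LaurentSeries Ω)
      (@instHSMul Ω (LaurentSeries Ω) (Algebra.toSMul)) a x).coeff n = a * x.coeff n := by
  rw [Algebra.smul_def, algebraMap_laurent_eq_single]
  have := HahnSeries.coeff_single_zero_mul (x := x) (r := a) (a := n)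
  simp

/-- The coefficient functionals are linear for the module structure `Algebra.toModule` (the one
carried by `Subalgebra.toSubmodule`, `IntermediateField`, ...). -/
theorem hcoeff_algebraToModule (Ω : Type*) [Field Ω] :
    ∀ n : ℤ, ∃ f : @LinearMap Ω Ω _ _ (RingHom.id Ω) (LaurentSeries Ω) Ω _ _
      Algebra.toModule _, ∀ x, f x = x.coeff n := fun n =>
  ⟨@LinearMap.mk Ω Ω _ _ (RingHom.id Ω) (LaurentSeries Ω) Ω _ _ Algebra.toModule _
    { toFun := fun x => x.coeff n
      map_add' := fun x y => by simp }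
    (fun a x => coeff_algebra_smul Ω n a x), fun _ => rfl⟩

/-- **Echelon descent for a finite-index subgroup of `Aut(Ω/K)`**, default module instance. -/
theorem exists_rational_ne_zero_of_finiteIndex {K Ω : Type*} [Field K] [Field Ω]
    [Algebra K Ω]
    (hAlg : ∀ z : Ω, (Set.range fun σ : Ω ≃ₐ[K] Ω => σ z).Finite →
      z ∈ Set.range (algebraMap K Ω))
    (H : Subgroup (Ω ≃ₐ[K] Ω)) [H.FiniteIndex]
    (W : Submodule Ω (LaurentSeries Ω)) [FiniteDimensional Ω W] (hW0 : W ≠ ⊥)
    (hW : ∀ σ ∈ H, ∀ w ∈ W, HahnSeries.map w (σ : Ω →+* Ω) ∈ W) :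
    ∃ w₀ : LaurentSeries K, w₀ ≠ 0 ∧ HahnSeries.map w₀ (algebraMap K Ω) ∈ W :=
  exists_rational_ne_zero_of_finiteIndex_aux (hcoeff_instModule Ω) hAlg H W hW0 hW

/-- **Echelon descent for a finite-index subgroup of `Aut(Ω/K)`**, module instance
`Algebra.toModule`. -/
theorem exists_rational_ne_zero_of_finiteIndex' {K Ω : Type*} [Field K] [Field Ω]
    [Algebra K Ω]
    (hAlg : ∀ z : Ω, (Set.range fun σ : Ω ≃ₐ[K] Ω => σ z).Finite →
      z ∈ Set.range (algebraMap K Ω))
    (H : Subgroup (Ω ≃ₐ[K] Ω)) [H.FiniteIndex]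
    (W : @Submodule Ω (LaurentSeries Ω) _ _ Algebra.toModule)
    [@FiniteDimensional Ω W _ _ (@Submodule.module Ω (LaurentSeries Ω) _ _ Algebra.toModule W)]
    (hW0 : W ≠ ⊥)
    (hW : ∀ σ ∈ H, ∀ w ∈ W, HahnSeries.map w (σ : Ω →+* Ω) ∈ W) :
    ∃ w₀ : LaurentSeries K, w₀ ≠ 0 ∧ HahnSeries.map w₀ (algebraMap K Ω) ∈ W :=
  @exists_rational_ne_zero_of_finiteIndex_aux K Ω _ _ _ Algebra.toModule
    (hcoeff_algebraToModule Ω) hAlg H _ W _ hW0 hW

end Fermat.Agent.S29.H751
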